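import Mathlib

/-!
# S29 / E2 (helper642): Nakayama eigen-functional

A finitely generated module `L` over a commutative ring `O`, a ring hom `θ : O → F` to a field with
maximal kernel such that every `r` killing `L` satisfies `θ r = 0`: there is a nonzero additive
`π : L → F` with `π (a • x) = θ a * π x`.
-/

set_option autoImplicit false

namespace Fermat.Agent.S29.H642

theorem exists_eigenfunctional {O : Type*} [CommRing O] {L : Type*} [AddCommGroup L] [Module O L]
    [Module.Finite O L] {F : Type*} [Field F] (θ : O →+* F) (hmax : (RingHom.ker θ).IsMaximal)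
    (hfaith : ∀ r : O, (∀ x : L, r • x = 0) → θ r = 0) :
    ∃ π : L →+ F, π ≠ 0 ∧ ∀ (a : O) (x : L), π (a • x) = θ a * π x := by
  classical
  set I : Ideal O := RingHom.ker θ with hI
  -- Nakayama: `I • ⊤ ≠ ⊤`
  have hne : (I • (⊤ : Submodule O L)) ≠ ⊤ := by
    intro htop
    obtain ⟨r, hr1, hr0⟩ := Submodule.exists_sub_one_mem_and_smul_eq_zero_of_fg_of_le_smul I
      (⊤ : Submodule O L) Module.Finite.fg_top (le_of_eq htop.symm)
    have h1 : θ r = 0 := hfaith r fun x => hr0 x Submodule.mem_top
    have h2 : θ (r - 1) = 0 := (RingHom.mem_ker).mp hr1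
    rw [map_sub, h1, map_one, zero_sub, neg_eq_zero] at h2
    exact one_ne_zero h2
  letI : Field (O ⧸ I) := Ideal.Quotient.field I
  -- a nonzero vector of the quotient
  obtain ⟨x₀, hx₀⟩ : ∃ x₀ : L, x₀ ∉ I • (⊤ : Submodule O L) := by
    by_contra hcon
    push_neg at hcon
    exact hne (eq_top_iff.mpr fun x _ => hcon x)
  set Q := L ⧸ I • (⊤ : Submodule O L)
  have hv : (Submodule.Quotient.mk x₀ : Q) ≠ 0 := by
    rwa [Ne, Submodule.Quotient.mk_eq_zero]
  obtain ⟨φ, hφ⟩ : ∃ φ : Module.Dual (O ⧸ I) Q, φ (Submodule.Quotient.mk x₀) ≠ 0 := by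
    by_contra hcon
    push_neg at hcon
    exact hv ((Module.forall_dual_apply_eq_zero_iff (O ⧸ I) _).mp hcon)
  let ι : O ⧸ I →+* F := RingHom.kerLift θ
  have hι : Function.Injective ι := RingHom.kerLift_injective θ
  refine ⟨ι.toAddMonoidHom.comp (φ.toAddMonoidHom.comp
    (I • (⊤ : Submodule O L)).mkQ.toAddMonoidHom), ?_, ?_⟩
  · intro h0
    have := congrArg (fun f : L →+ F => f x₀) h0
    simp only [AddMonoidHom.coe_comp, Function.comp_apply, AddMonoidHom.zero_apply] at this
    apply hφ
    apply hι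
    rw [map_zero]
    exact this
  · intro a x
    simp only [AddMonoidHom.coe_comp, Function.comp_apply]
    show ι (φ (Submodule.Quotient.mk (a • x))) = θ a * ι (φ (Submodule.Quotient.mk x))
    have h1 : (Submodule.Quotient.mk (a • x) : Q)
        = (Ideal.Quotient.mk I a) • (Submodule.Quotient.mk x : Q) := rfl
    rw [h1, map_smul, smul_eq_mul, map_mul]
    rfl

end Fermat.Agent.S29.H642
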