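import Mathlib
import Fermat.Prelude.Thm_ModularForm_heckeT_slash_eq_self_of_mem_Gamma0
import Fermat.Prelude.Def_ModularCurve_PeriodMap

/-!
# S29 / E2 (helper642): the Hecke transfer on characters of `Γ₀(N)`

For a prime `p ∤ N`, `γ ∈ Γ₀(N)` and `x ∈ ℙ¹(𝔽_p)` there is a unique `γ_x ∈ Γ₀(N)` with
`heckeRep p x * γ = γ_x * heckeRep p (π_γ x)` (Prelude: `heckeRep_mul`).  The *Hecke transfer* of an
additive character `χ : Γ₀(N) → A` is `(T_p χ)(γ) = ∑_x χ(γ_x)`.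
-/

set_option autoImplicit false

namespace Fermat.Agent.S29.H642

open CongruenceSubgroup Matrix.SpecialLinearGroup
open P2MW.S_ModularForm_heckeT_slash_eq_self_of_mem_Gamma0.ModularForm.HeckeSlashInvariance
open scoped MatrixGroups

variable {p : ℕ} [Fact p.Prime] {N : ℕ}

/-- `mapGL ℝ : SL(2, ℤ) → GL(2, ℝ)` is injective. -/
theorem mapGL_real_injective :
    Function.Injective (mapGL ℝ : SL(2, ℤ) →* GL (Fin 2) ℝ) := by
  intro g h hgh
  ext i j
  have h1 := congrArg (fun M : GL (Fin 2) ℝ => (M : Matrix (Fin 2) (Fin 2) ℝ) i j) hgh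
  simp only [mapGL_coe_matrix, algebraMap_int_eq, map_apply_coe, RingHom.mapMatrix_apply,
    Int.coe_castRingHom, Matrix.map_apply] at h1
  exact_mod_cast h1

theorem dvd_of_mem_Gamma0 {g : SL(2, ℤ)} (hg : g ∈ Gamma0 N) : (N : ℤ) ∣ g 1 0 :=
  (ZMod.intCast_zmod_eq_zero_iff_dvd _ _).mp (Gamma0_mem.mp hg)

theorem mem_Gamma0_of_dvd {g : SL(2, ℤ)} (hg : (N : ℤ) ∣ g 1 0) : g ∈ Gamma0 N :=
  Gamma0_mem.mpr ((ZMod.intCast_zmod_eq_zero_iff_dvd _ _).mpr hg)

/-- The permutation of `ℙ¹(𝔽_p)` attached to `g`. -/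
noncomputable def hPerm (p : ℕ) [Fact p.Prime] (g : SL(2, ℤ)) :
    Equiv.Perm (OnePoint (ZMod p)) :=
  MulAction.toPerm (redMatrix p g)

@[simp] theorem hPerm_apply (g : SL(2, ℤ)) (x : OnePoint (ZMod p)) :
    hPerm p g x = redMatrix p g • x := rfl

/-- The element `γ_x` of `Γ₀(N)` with `heckeRep p x * γ = γ_x * heckeRep p (π_γ x)`. -/
noncomputable def hElt (hpN : ¬ p ∣ N) (γ : Gamma0 N) (x : OnePoint (ZMod p)) : Gamma0 N :=
  ⟨(heckeRep_mul hpN (γ : SL(2, ℤ)) (dvd_of_mem_Gamma0 γ.2) x).choose,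
    mem_Gamma0_of_dvd (heckeRep_mul hpN (γ : SL(2, ℤ)) (dvd_of_mem_Gamma0 γ.2) x).choose_spec.1⟩

theorem hElt_spec (hpN : ¬ p ∣ N) (γ : Gamma0 N) (x : OnePoint (ZMod p)) :
    heckeRep p x * mapGL ℝ (γ : SL(2, ℤ)) =
      mapGL ℝ ((hElt hpN γ x : Gamma0 N) : SL(2, ℤ)) * heckeRep p (hPerm p (γ : SL(2, ℤ)) x) :=
  (heckeRep_mul hpN (γ : SL(2, ℤ)) (dvd_of_mem_Gamma0 γ.2) x).choose_spec.2

/-- Uniqueness of `γ_x`. -/
theorem hElt_unique (hpN : ¬ p ∣ N) (γ : Gamma0 N) (x : OnePoint (ZMod p)) (δ : Gamma0 N)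
    (h : heckeRep p x * mapGL ℝ (γ : SL(2, ℤ)) =
      mapGL ℝ (δ : SL(2, ℤ)) * heckeRep p (hPerm p (γ : SL(2, ℤ)) x)) :
    δ = hElt hpN γ x := by
  have h2 := hElt_spec hpN γ x
  rw [h] at h2
  have h3 := mul_right_cancel h2
  exact Subtype.ext (mapGL_real_injective h3)

theorem redMatrix_mul (g h : SL(2, ℤ)) : redMatrix p (g * h) = redMatrix p h * redMatrix p g := by
  ext i j
  fin_cases i <;> fin_cases j <;>
    simp [redMatrix, Matrix.mul_apply, Fin.sum_univ_two] <;> ring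

theorem redMatrix_one : redMatrix p (1 : SL(2, ℤ)) = 1 := by
  ext i j
  fin_cases i <;> fin_cases j <;> simp [redMatrix]

theorem hPerm_mul (g h : SL(2, ℤ)) (x : OnePoint (ZMod p)) :
    hPerm p (g * h) x = hPerm p h (hPerm p g x) := by
  simp only [hPerm_apply, redMatrix_mul, mul_smul]

theorem hElt_mul (hpN : ¬ p ∣ N) (γ δ : Gamma0 N) (x : OnePoint (ZMod p)) :
    hElt hpN (γ * δ) x = hElt hpN γ x * hElt hpN δ (hPerm p (γ : SL(2, ℤ)) x) := by
  symm
  apply hElt_unique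
  have h1 := hElt_spec hpN γ x
  have h2 := hElt_spec hpN δ (hPerm p (γ : SL(2, ℤ)) x)
  calc heckeRep p x * mapGL ℝ ((γ * δ : Gamma0 N) : SL(2, ℤ))
      = (heckeRep p x * mapGL ℝ (γ : SL(2, ℤ))) * mapGL ℝ (δ : SL(2, ℤ)) := by
        rw [Subgroup.coe_mul, map_mul, mul_assoc]
    _ = mapGL ℝ ((hElt hpN γ x : Gamma0 N) : SL(2, ℤ)) *
          (heckeRep p (hPerm p (γ : SL(2, ℤ)) x) * mapGL ℝ (δ : SL(2, ℤ))) := by
        rw [h1, mul_assoc]
    _ = mapGL ℝ ((hElt hpN γ x : Gamma0 N) : SL(2, ℤ)) *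
          (mapGL ℝ ((hElt hpN δ (hPerm p (γ : SL(2, ℤ)) x) : Gamma0 N) : SL(2, ℤ)) *
            heckeRep p (hPerm p (δ : SL(2, ℤ)) (hPerm p (γ : SL(2, ℤ)) x))) := by
        rw [h2]
    _ = _ := by
        rw [Subgroup.coe_mul, Subgroup.coe_mul, map_mul, hPerm_mul, mul_assoc]

section Transfer

variable {A : Type*} [AddCommGroup A]

/-- The **Hecke transfer** `T_p` on additive characters of `Γ₀(N)` (`p ∤ N` prime). -/
noncomputable def heckeTransfer (hpN : ¬ p ∣ N) (χ : Additive (Gamma0 N) →+ A) :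
    Additive (Gamma0 N) →+ A where
  toFun γ := ∑ x : OnePoint (ZMod p), χ (Additive.ofMul (hElt hpN (Additive.toMul γ) x))
  map_zero' := by
    have h : ∀ x : OnePoint (ZMod p), hElt hpN (1 : Gamma0 N) x = 1 := by
      intro x
      symm
      apply hElt_unique
      simp [hPerm_apply, redMatrix_one]
    simp only [toMul_zero, h, ofMul_one, map_zero, Finset.sum_const_zero]
  map_add' γ δ := by
    simp only [toMul_add, hElt_mul, ofMul_mul, map_add, Finset.sum_add_distrib]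
    congr 1
    exact Equiv.sum_comp (hPerm p ((Additive.toMul γ : Gamma0 N) : SL(2, ℤ)))
      (fun y => χ (Additive.ofMul (hElt hpN (Additive.toMul δ) y)))

theorem heckeTransfer_apply (hpN : ¬ p ∣ N) (χ : Additive (Gamma0 N) →+ A) (γ : Gamma0 N) :
    heckeTransfer hpN χ (Additive.ofMul γ) =
      ∑ x : OnePoint (ZMod p), χ (Additive.ofMul (hElt hpN γ x)) := rfl

/-- The transfer commutes with post-composition by an additive map. -/
theorem heckeTransfer_comp {B : Type*} [AddCommGroup B] (hpN : ¬ p ∣ N) (π : A →+ B)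
    (χ : Additive (Gamma0 N) →+ A) :
    heckeTransfer hpN (π.comp χ) = π.comp (heckeTransfer hpN χ) := by
  refine AddMonoidHom.ext fun γ => ?_
  simp only [heckeTransfer, AddMonoidHom.coe_mk, ZeroHom.coe_mk, AddMonoidHom.coe_comp,
    Function.comp_apply, map_sum]

theorem heckeTransfer_add (hpN : ¬ p ∣ N) (χ χ' : Additive (Gamma0 N) →+ A) :
    heckeTransfer hpN (χ + χ') = heckeTransfer hpN χ + heckeTransfer hpN χ' := by
  refine AddMonoidHom.ext fun γ => ?_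
  simp only [heckeTransfer, AddMonoidHom.coe_mk, ZeroHom.coe_mk, AddMonoidHom.add_apply,
    Finset.sum_add_distrib]

end Transfer

end Fermat.Agent.S29.H642
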