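import Mathlib
import Fermat.Prelude.Def_ModularForm_HeckeOperatorForms
import Fermat.Agent.S21.H381.PeriodMap
import Fermat.Agent.S29.H642.HeckeTransfer

/-!
# S29 / E2 (helper642): the period map intertwines `T_p` with the Hecke transfer
-/

set_option autoImplicit false

namespace Fermat.Agent.S29.H642

open CongruenceSubgroup ModularCurve ModularCurve.Period Matrix.SpecialLinearGroup
open P2MW.S_ModularForm_heckeT_slash_eq_self_of_mem_Gamma0.ModularForm.HeckeSlashInvariance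
open UpperHalfPlane hiding I
open scoped MatrixGroups ModularForm Manifold

variable {p : ℕ} [Fact p.Prime] {N : ℕ}

omit [Fact p.Prime] in
theorem det_heckeRep_pos (x : OnePoint (ZMod p)) :
    0 < ((heckeRep p x : GL (Fin 2) ℝ) : Matrix (Fin 2) (Fin 2) ℝ).det := by
  induction x using OnePoint.rec with
  | infty =>
    have := ModularForm.det_heckeDiagMatrix_pos p
    rwa [Matrix.GeneralLinearGroup.val_det_apply] at this
  | coe j =>
    have := ModularForm.det_heckeMatrix_pos p j.val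
    rwa [Matrix.GeneralLinearGroup.val_det_apply] at this

/-- Chain rule for the action of an element of `GL(2, ℝ)` with positive determinant. -/
theorem hasDerivAt_comp_smul_GL {F f : ℍ → ℂ}
    (hF : ∀ τ : ℍ, HasDerivAt (F ∘ ofComplex) (f τ) ↑τ) (α : GL (Fin 2) ℝ)
    (hpos : 0 < (α : Matrix (Fin 2) (Fin 2) ℝ).det) (τ : ℍ) :
    HasDerivAt ((fun w : ℍ => F (α • w)) ∘ ofComplex) ((f ∣[(2 : ℤ)] α) τ) ↑τ := by
  have h_smul : HasDerivAt (fun w ↦ ↑(α • ofComplex w) : ℂ → ℂ)
      (((α : Matrix (Fin 2) (Fin 2) ℝ).det : ℂ) / denom α τ ^ 2) ↑τ :=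
    (hasStrictDerivAt_smul hpos τ).hasDerivAt
  have h_F : HasDerivAt (F ∘ ofComplex) (f (α • τ)) ↑(α • ofComplex (τ : ℂ)) := by
    rw [ofComplex_apply]
    exact hF (α • τ)
  have hcomp := h_F.comp (τ : ℂ) h_smul
  have heq : ((fun w : ℍ => F (α • w)) ∘ ofComplex)
      = (F ∘ ofComplex) ∘ (fun w ↦ ↑(α • ofComplex w) : ℂ → ℂ) := by
    funext z
    simp only [Function.comp_apply, ofComplex_apply]
  rw [heq]
  refine hcomp.congr_deriv ?_
  have hσ : UpperHalfPlane.σ α = .refl ℝ ℂ := by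
    rw [UpperHalfPlane.σ, if_pos]
    rwa [Matrix.GeneralLinearGroup.val_det_apply]
  rw [ModularForm.slash_apply, hσ]
  have hz := denom_ne_zero α τ
  have habs : |(α.det : ℝˣ).val| = (α : Matrix (Fin 2) (Fin 2) ℝ).det := by
    rw [Matrix.GeneralLinearGroup.val_det_apply]
    exact abs_of_pos hpos
  simp only [ContinuousAlgEquiv.refl_apply, habs]
  rw [show (2 : ℤ) - 1 = 1 by norm_num, zpow_one, zpow_neg]
  field_simp

variable [NeZero N]

/-- **Hecke equivariance of the period map** (`p ∤ N` prime): the periods of `T_p f` are the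
Hecke transfer of the periods of `f`. -/
theorem periodMap_heckeTLin (hp : p.Prime) (hpN : ¬ p ∣ N) (f : CuspForm (Gamma0 N) 2) :
    periodMap N (CuspForm.heckeTLin 2 hp hpN f) = heckeTransfer hpN (periodMap N f) := by
  obtain ⟨F, hF⟩ := Fermat.Agent.S21.H381.exists_hasEquivariantPrimitive f
  obtain ⟨G, hG⟩ := Fermat.Agent.S21.H381.exists_hasEquivariantPrimitive
    (CuspForm.heckeTLin 2 hp hpN f)
  haveI : NeZero p := ⟨hp.ne_zero⟩
  -- the explicit primitive of `T_p f`
  set FT : ℍ → ℂ := fun w => ∑ x : OnePoint (ZMod p), F (heckeRep p x • w) with hFT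
  have hFTd : ∀ τ : ℍ, HasDerivAt (FT ∘ ofComplex) ((CuspForm.heckeTLin 2 hp hpN f) τ) ↑τ := by
    intro τ
    have h1 : (FT ∘ ofComplex) = fun z : ℂ => ∑ x : OnePoint (ZMod p),
        ((fun w : ℍ => F (heckeRep p x • w)) ∘ ofComplex) z := by
      funext z
      simp [hFT]
    have h2 : (CuspForm.heckeTLin 2 hp hpN f) τ =
        ∑ x : OnePoint (ZMod p), ((f : ℍ → ℂ) ∣[(2 : ℤ)] heckeRep p x) τ := by
      rw [CuspForm.heckeTLin_apply_apply, heckeT_eq_sum_onePoint, Finset.sum_apply]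
    rw [h1, h2]
    exact HasDerivAt.fun_sum fun x _ =>
      hasDerivAt_comp_smul_GL hF.1 (heckeRep p x) (det_heckeRep_pos x) τ
  refine AddMonoidHom.ext fun γ' => ?_
  obtain ⟨γ, rfl⟩ : ∃ γ : Gamma0 N, Additive.ofMul γ = γ' := ⟨Additive.toMul γ', rfl⟩
  rw [Fermat.Agent.S21.H381.periodMap_apply hG γ UpperHalfPlane.I, heckeTransfer_apply]
  -- `G - FT` is constant
  have hconst := Fermat.Agent.S21.H381.sub_const_of_hasDerivAt hG.1 hFTd
    ((γ : SL(2, ℤ)) • UpperHalfPlane.I) UpperHalfPlane.I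
  have hGF : G ((γ : SL(2, ℤ)) • UpperHalfPlane.I) - G UpperHalfPlane.I
      = FT ((γ : SL(2, ℤ)) • UpperHalfPlane.I) - FT UpperHalfPlane.I := by
    linear_combination hconst
  rw [hGF, hFT]
  simp only
  -- termwise
  have hterm : ∀ x : OnePoint (ZMod p),
      F (heckeRep p x • ((γ : SL(2, ℤ)) • UpperHalfPlane.I))
        = periodMap N f (Additive.ofMul (hElt hpN γ x))
          + F (heckeRep p (hPerm p (γ : SL(2, ℤ)) x) • UpperHalfPlane.I) := by
    intro x
    have hs := hElt_spec hpN γ x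
    have e1 : heckeRep p x • ((γ : SL(2, ℤ)) • UpperHalfPlane.I)
        = ((hElt hpN γ x : Gamma0 N) : SL(2, ℤ)) •
            (heckeRep p (hPerm p (γ : SL(2, ℤ)) x) • UpperHalfPlane.I) := by
      show heckeRep p x • (mapGL ℝ (γ : SL(2, ℤ)) • UpperHalfPlane.I)
        = mapGL ℝ ((hElt hpN γ x : Gamma0 N) : SL(2, ℤ)) •
            (heckeRep p (hPerm p (γ : SL(2, ℤ)) x) • UpperHalfPlane.I)
      rw [← mul_smul, ← mul_smul, hs]
    rw [e1, Fermat.Agent.S21.H381.periodMap_apply hF (hElt hpN γ x)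
      (heckeRep p (hPerm p (γ : SL(2, ℤ)) x) • UpperHalfPlane.I)]
    ring
  rw [Finset.sum_congr rfl fun x _ => hterm x, Finset.sum_add_distrib,
    Equiv.sum_comp (hPerm p (γ : SL(2, ℤ))) (fun y => F (heckeRep p y • UpperHalfPlane.I))]
  ring

end Fermat.Agent.S29.H642
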