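import Mathlib
import Fermat.Prelude.Def_GaloisRep_Residual
import Fermat.Agent.S49.Glue
import Fermat.Agent.S21.H81.InjCore
import Fermat.Agent.S29.H642.PeriodHecke

/-!
# S29 / E2 (helper642): a normalised eigenform is a `T_p`-eigenvector; its period lattice
-/

set_option autoImplicit false

namespace Fermat.Agent.S29.H642

open CongruenceSubgroup ModularCurve ModularCurve.Period ModularFormClass
open UpperHalfPlane hiding I
open scoped MatrixGroups ModularForm

variable {N : ℕ}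

/-- The Hecke relation `a_{np} + p a_{n/p} = a_p a_n` for a normalised eigenform, `p ∤ N`. -/
theorem qCoeff_hecke_relation {g : CuspForm (Gamma0 N) 2} (hg : g.IsNormalizedEigenform)
    {p : ℕ} (hp : p.Prime) (hpN : ¬ p ∣ N) (n : ℕ) :
    qCoeff ⇑g (n * p) + (if p ∣ n then (p : ℂ) * qCoeff ⇑g (n / p) else 0)
      = qCoeff ⇑g p * qCoeff ⇑g n := by
  rcases Nat.eq_zero_or_pos n with rfl | hn
  · have h0 := Fermat.Agent.S49.glue_qCoeff_zero_idx g
    simp [h0]
  obtain ⟨r, m, hm, rfl⟩ := Nat.exists_eq_pow_mul_and_not_dvd hn.ne' p hp.ne_one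
  have hcop : ∀ s : ℕ, (p ^ s).Coprime m :=
    fun s => Nat.Coprime.pow_left s ((Nat.Prime.coprime_iff_not_dvd hp).mpr hm)
  have e1 : p ^ r * m * p = p ^ (r + 1) * m := by ring
  rw [e1, hg.qCoeff_mul_of_coprime _ _ (hcop (r + 1)), hg.qCoeff_mul_of_coprime _ _ (hcop r)]
  rcases Nat.eq_zero_or_pos r with rfl | hr
  · have hnd : ¬ p ∣ p ^ 0 * m := by simpa using hm
    rw [if_neg hnd]
    simp [hg.qCoeff_one]
  · obtain ⟨s, rfl⟩ : ∃ s, r = s + 1 := ⟨r - 1, by omega⟩
    have hd : p ∣ p ^ (s + 1) * m := Dvd.dvd.mul_right (dvd_pow_self p (by omega)) m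
    have hdiv : p ^ (s + 1) * m / p = p ^ s * m := by
      rw [pow_succ, mul_assoc, mul_comm p m, ← mul_assoc]
      exact Nat.mul_div_cancel _ hp.pos
    rw [if_pos hd, hdiv, hg.qCoeff_mul_of_coprime _ _ (hcop s),
      hg.qCoeff_prime_pow_of_not_dvd p s hp hpN]
    ring

/-- A normalised eigenform is an eigenvector of `T_p` with eigenvalue `a_p` (`p ∤ N`). -/
theorem heckeTLin_eq_smul {g : CuspForm (Gamma0 N) 2} (hg : g.IsNormalizedEigenform)
    {p : ℕ} (hp : p.Prime) (hpN : ¬ p ∣ N) :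
    CuspForm.heckeTLin 2 hp hpN g = qCoeff ⇑g p • g := by
  rw [← sub_eq_zero]
  apply Fermat.Agent.S49.glue_eq_zero_of_qCoeff
  intro n
  rw [Fermat.Agent.S49.glue_qCoeff_sub, Fermat.Agent.S49.glue_qCoeff_heckeTLin,
    Fermat.Agent.S49.glue_qCoeff_smul, qCoeff_hecke_relation hg hp hpN n, sub_self]

theorem ne_zero_of_isNormalizedEigenform {g : CuspForm (Gamma0 N) 2}
    (hg : g.IsNormalizedEigenform) : g ≠ 0 := by
  rintro rfl
  have h1 := hg.qCoeff_one
  have h0 : qCoeff ⇑(0 : CuspForm (Gamma0 N) 2) 1 = 0 := by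
    have := Fermat.Agent.S49.glue_qCoeff_smul (N := N) 0 0 1
    simpa using this
  rw [h0] at h1
  exact zero_ne_one h1

variable [NeZero N]

/-- The period map of a nonzero cusp form is nonzero. -/
theorem periodMap_ne_zero {f : CuspForm (Gamma0 N) 2} (hf : f ≠ 0) : periodMap N f ≠ 0 := by
  intro h0
  apply hf
  obtain ⟨F, hF⟩ := Fermat.Agent.S21.H381.exists_hasEquivariantPrimitive f
  have hder : ∀ τ : ℍ, deriv (F ∘ ofComplex) (τ : ℂ) = 0 := by
    intro τ
    refine Fermat.Agent.S21.H81.injCore_deriv_eq_zero (N := N) (A := F)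
      (fun τ => (hF.1 τ).differentiableAt) ?_ hF.2.2.2 τ
    intro γ hγ
    refine ⟨0, rfl, fun z => ?_⟩
    have := Fermat.Agent.S21.H381.periodMap_apply hF ⟨γ, hγ⟩ z
    rw [h0] at this
    simpa using this.symm
  ext τ
  have := (hF.1 τ).deriv
  rw [hder τ] at this
  simpa using this.symm

end Fermat.Agent.S29.H642
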