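import Mathlib
import Fermat.Agent.S21.H381.Parabolic
import Fermat.Agent.S29.H642.EigenRel
import Fermat.Agent.S29.H642.EigenFunctional

/-!
# S29 / E2 (helper642): the eigensystem of a normalised eigenform occurs in
`Hom_par(Γ₀(N), F)` for every field `F` of characteristic `p` receiving `ℤ̄`

Main results:
* `isIntegral_qCoeff`        : `a_ℓ(g)` is an algebraic integer (`ℓ ∤ N` prime);
* `exists_eigenChar`         : a nonzero parabolic `χ : Γ₀(N) → F` with
  `T_ℓ χ = ψ(a_ℓ) χ` for every prime `ℓ ∤ N`, where `T_ℓ` is the Hecke transfer.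
No Hecke commutativity, no surjectivity of the Eichler–Shimura map is used.
-/

set_option autoImplicit false

namespace Fermat.Agent.S29.H642

open CongruenceSubgroup ModularCurve ModularCurve.Period ModularFormClass
open scoped MatrixGroups

/-! ### Finite generation of `Γ₀(N)` -/

theorem groupFG_SL2Z : Group.FG SL(2, ℤ) :=
  Group.fg_iff.mpr ⟨{ModularGroup.S, ModularGroup.T},
    SpecialLinearGroup.SL2Z_generators, by simp⟩

theorem groupFG_Gamma0 (N : ℕ) [NeZero N] : Group.FG (Gamma0 N) := by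
  haveI := groupFG_SL2Z
  infer_instance

/-! ### The stabiliser algebra of a lattice in `ℂ` -/

/-- The elements of `ℤ̄` stabilising an additive subgroup `L ⊆ ℂ`. -/
def stabAlg (L : AddSubgroup ℂ) : Subalgebra ℤ (integralClosure ℤ ℂ) where
  carrier := {a | ∀ x ∈ L, ((a : integralClosure ℤ ℂ) : ℂ) * x ∈ L}
  mul_mem' := by
    intro a b ha hb x hx
    have := ha _ (hb x hx)
    simpa [mul_assoc] using this
  one_mem' := by
    intro x hx
    simpa using hx
  add_mem' := by
    intro a b ha hb x hx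
    have := L.add_mem (ha x hx) (hb x hx)
    simpa [add_mul] using this
  zero_mem' := by
    intro x _
    simp
  algebraMap_mem' := by
    intro n x hx
    have := L.zsmul_mem hx n
    simpa using this

theorem mem_stabAlg {L : AddSubgroup ℂ} {a : integralClosure ℤ ℂ} :
    a ∈ stabAlg L ↔ ∀ x ∈ L, ((a : integralClosure ℤ ℂ) : ℂ) * x ∈ L := Iff.rfl

noncomputable instance stabModule (L : AddSubgroup ℂ) : Module (stabAlg L) L where
  smul a x := ⟨(((a : stabAlg L) : integralClosure ℤ ℂ) : ℂ) * (x : ℂ), a.2 x x.2⟩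
  one_smul x := Subtype.ext (by
    show (((1 : stabAlg L) : integralClosure ℤ ℂ) : ℂ) * (x : ℂ) = x
    simp)
  mul_smul a b x := Subtype.ext (by
    show (((a * b : stabAlg L) : integralClosure ℤ ℂ) : ℂ) * (x : ℂ)
      = ((a : integralClosure ℤ ℂ) : ℂ) * (((b : integralClosure ℤ ℂ) : ℂ) * (x : ℂ))
    simp [mul_assoc])
  smul_zero a := Subtype.ext (by
    show (((a : stabAlg L) : integralClosure ℤ ℂ) : ℂ) * ((0 : L) : ℂ) = ((0 : L) : ℂ)
    simp)
  smul_add a x y := Subtype.ext (by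
    show (((a : stabAlg L) : integralClosure ℤ ℂ) : ℂ) * ((x + y : L) : ℂ)
      = ((a : integralClosure ℤ ℂ) : ℂ) * (x : ℂ) + ((a : integralClosure ℤ ℂ) : ℂ) * (y : ℂ)
    simp [mul_add])
  add_smul a b x := Subtype.ext (by
    show (((a + b : stabAlg L) : integralClosure ℤ ℂ) : ℂ) * (x : ℂ)
      = ((a : integralClosure ℤ ℂ) : ℂ) * (x : ℂ) + ((b : integralClosure ℤ ℂ) : ℂ) * (x : ℂ)
    simp [add_mul])
  zero_smul x := Subtype.ext (by
    show (((0 : stabAlg L) : integralClosure ℤ ℂ) : ℂ) * (x : ℂ) = ((0 : L) : ℂ)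
    simp)

theorem coe_stab_smul {L : AddSubgroup ℂ} (a : stabAlg L) (x : L) :
    ((a • x : L) : ℂ) = (((a : stabAlg L) : integralClosure ℤ ℂ) : ℂ) * (x : ℂ) := rfl

theorem stabModule_finite (L : AddSubgroup ℂ) [hL : AddGroup.FG L] :
    Module.Finite (stabAlg L) L := by
  obtain ⟨s, hs⟩ := hL.out
  refine ⟨⟨s, ?_⟩⟩
  rw [eq_top_iff]
  intro x _
  have hx : x ∈ AddSubgroup.closure (s : Set L) := by rw [hs]; trivial
  have hle : AddSubgroup.closure (s : Set L)
      ≤ (Submodule.span (stabAlg L) (s : Set L)).toAddSubgroup :=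
    (AddSubgroup.closure_le _).mpr Submodule.subset_span
  exact hle hx

/-- The kernel of a ring hom from a `ℤ`-integral ring to a field of characteristic `p` is maximal. -/
theorem ker_isMaximal_of_integral {O : Type*} [CommRing O] [Algebra.IsIntegral ℤ O]
    {F : Type*} [Field F] {p : ℕ} (hp : p.Prime) [CharP F p] (θ : O →+* F) :
    (RingHom.ker θ).IsMaximal := by
  haveI : (RingHom.ker θ).IsPrime := RingHom.ker_isPrime θ
  apply Ideal.isMaximal_of_isIntegral_of_isMaximal_comap (R := ℤ)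
  have hprime : (Ideal.comap (algebraMap ℤ O) (RingHom.ker θ)).IsPrime :=
    Ideal.comap_isPrime _ _
  refine hprime.isMaximal ?_
  intro hbot
  have hpmem : (p : ℤ) ∈ Ideal.comap (algebraMap ℤ O) (RingHom.ker θ) := by
    rw [Ideal.mem_comap, RingHom.mem_ker]
    simp
  rw [hbot, Ideal.mem_bot] at hpmem
  exact hp.ne_zero (by exact_mod_cast hpmem)

theorem stabAlg_isIntegral (L : AddSubgroup ℂ) : Algebra.IsIntegral ℤ (stabAlg L) := by
  refine ⟨fun a => ?_⟩
  have h1 : IsIntegral ℤ (((a : stabAlg L) : integralClosure ℤ ℂ) : ℂ) :=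
    (a : integralClosure ℤ ℂ).2
  have h2 : IsIntegral ℤ ((a : stabAlg L) : integralClosure ℤ ℂ) :=
    (isIntegral_algHom_iff (integralClosure ℤ ℂ).val Subtype.val_injective).mp h1
  exact (isIntegral_algHom_iff (stabAlg L).val Subtype.val_injective).mp h2

/-! ### The period lattice of an eigenform -/

section Lattice

variable {N : ℕ} [NeZero N]

/-- The period lattice `P_g(Γ₀(N)) ⊆ ℂ`. -/
noncomputable def perLattice (g : CuspForm (Gamma0 N) 2) : AddSubgroup ℂ :=
  (periodMap N g).range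

theorem perLattice_fg (g : CuspForm (Gamma0 N) 2) : AddGroup.FG (perLattice g) := by
  haveI := groupFG_Gamma0 N
  exact AddGroup.fg_range (periodMap N g)

theorem periodMap_mem_perLattice (g : CuspForm (Gamma0 N) 2) (γ : Additive (Gamma0 N)) :
    periodMap N g γ ∈ perLattice g := ⟨γ, rfl⟩

/-- `a_ℓ · L_g ⊆ L_g` for a normalised eigenform `g` and a prime `ℓ ∤ N`. -/
theorem qCoeff_mul_mem_perLattice {g : CuspForm (Gamma0 N) 2} (hg : g.IsNormalizedEigenform)
    {ℓ : ℕ} (hℓ : ℓ.Prime) (hℓN : ¬ ℓ ∣ N) {x : ℂ} (hx : x ∈ perLattice g) :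
    qCoeff ⇑g ℓ * x ∈ perLattice g := by
  haveI : Fact ℓ.Prime := ⟨hℓ⟩
  obtain ⟨γ, rfl⟩ := hx
  have h1 := periodMap_heckeTLin hℓ hℓN g
  rw [heckeTLin_eq_smul hg hℓ hℓN, Fermat.Agent.S21.H381.periodMap_smul] at h1
  have h2 := congrArg (fun φ : Additive (Gamma0 N) →+ ℂ => φ γ) h1
  simp only [AddMonoidHom.smul_apply, smul_eq_mul] at h2
  rw [h2]
  obtain ⟨γ', rfl⟩ : ∃ γ' : Gamma0 N, Additive.ofMul γ' = γ := ⟨Additive.toMul γ, rfl⟩
  rw [heckeTransfer_apply]
  exact (perLattice g).sum_mem fun y _ => periodMap_mem_perLattice g _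

theorem perLattice_ne_bot {g : CuspForm (Gamma0 N) 2} (hg : g ≠ 0) :
    ∃ x ∈ perLattice g, x ≠ 0 := by
  by_contra hcon
  push_neg at hcon
  apply periodMap_ne_zero hg
  refine AddMonoidHom.ext fun γ => ?_
  exact hcon _ (periodMap_mem_perLattice g γ)

/-- **Integrality** of the Hecke eigenvalues `a_ℓ`, `ℓ ∤ N` prime. -/
theorem isIntegral_qCoeff {g : CuspForm (Gamma0 N) 2} (hg : g.IsNormalizedEigenform)
    {ℓ : ℕ} (hℓ : ℓ.Prime) (hℓN : ¬ ℓ ∣ N) : IsIntegral ℤ (qCoeff ⇑g ℓ) := by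
  haveI := perLattice_fg g
  obtain ⟨x, hx, hx0⟩ := perLattice_ne_bot (ne_zero_of_isNormalizedEigenform hg)
  refine isIntegral_of_smul_mem_submodule (M := ℂ) (AddSubgroup.toIntSubmodule (perLattice g))
    ?_ ?_ (qCoeff ⇑g ℓ) ?_
  · intro hbot
    have : x ∈ AddSubgroup.toIntSubmodule (perLattice g) := hx
    rw [hbot] at this
    exact hx0 ((Submodule.mem_bot ℤ).mp this)
  · have h := (AddGroup.fg_iff_addSubgroup_fg (perLattice g)).mp (perLattice_fg g)
    exact (Submodule.fg_iff_addSubgroup_fg _).mpr (by simpa using h)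
  · intro n hn
    exact qCoeff_mul_mem_perLattice hg hℓ hℓN hn

/-- **E2 (EigenChar)**: the mod-`p` eigensystem of a normalised eigenform occurs in the parabolic
characters of `Γ₀(N)` with values in `F`: there is a nonzero parabolic additive character
`χ : Γ₀(N) → F` such that for every prime `ℓ ∤ N` and every `a ∈ ℤ̄` with `a = a_ℓ(g)`,
`T_ℓ χ = ψ(a) · χ` (Hecke transfer). -/
theorem exists_eigenChar {g : CuspForm (Gamma0 N) 2} (hg : g.IsNormalizedEigenform)
    {p : ℕ} (hp : p.Prime) {F : Type*} [Field F] [CharP F p]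
    (ψ : integralClosure ℤ ℂ →+* F) :
    ∃ χ : Additive (Gamma0 N) →+ F, χ ≠ 0 ∧ IsParabolicHom (Gamma0 N) χ ∧
      ∀ (ℓ : ℕ) [Fact ℓ.Prime] (hℓN : ¬ ℓ ∣ N) (a : integralClosure ℤ ℂ),
        (a : ℂ) = qCoeff ⇑g ℓ → ∀ γ : Additive (Gamma0 N),
          heckeTransfer hℓN χ γ = ψ a * χ γ := by
  classical
  set L : AddSubgroup ℂ := perLattice g with hL
  haveI : AddGroup.FG L := perLattice_fg g
  haveI : Module.Finite (stabAlg L) L := stabModule_finite L
  haveI : Algebra.IsIntegral ℤ (stabAlg L) := stabAlg_isIntegral L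
  let θ : stabAlg L →+* F := ψ.comp (stabAlg L).val.toRingHom
  have hmax : (RingHom.ker θ).IsMaximal := ker_isMaximal_of_integral hp θ
  obtain ⟨x₀, hx₀, hx₀0⟩ := perLattice_ne_bot (ne_zero_of_isNormalizedEigenform hg)
  have hfaith : ∀ r : stabAlg L, (∀ x : L, r • x = 0) → θ r = 0 := by
    intro r hr
    have h1 := congrArg (fun y : L => (y : ℂ)) (hr ⟨x₀, hx₀⟩)
    simp only [coe_stab_smul, ZeroMemClass.coe_zero] at h1
    have h2 : (((r : stabAlg L) : integralClosure ℤ ℂ) : ℂ) = 0 :=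
      (mul_eq_zero.mp h1).resolve_right hx₀0
    have h3 : r = 0 := Subtype.ext (Subtype.ext h2)
    rw [h3, map_zero]
  obtain ⟨π, hπ0, hπ⟩ := exists_eigenfunctional θ hmax hfaith
  -- the period map, with values in `L`
  let P : Additive (Gamma0 N) →+ L := (periodMap N g).rangeRestrict
  have hPsurj : Function.Surjective P := (periodMap N g).rangeRestrict_surjective
  have hPcoe : ∀ γ, ((P γ : L) : ℂ) = periodMap N g γ := fun γ => rfl
  refine ⟨π.comp P, ?_, ?_, ?_⟩
  · intro h0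
    apply hπ0
    refine AddMonoidHom.ext fun y => ?_
    obtain ⟨γ, rfl⟩ := hPsurj y
    exact congrArg (fun φ : Additive (Gamma0 N) →+ F => φ γ) h0
  · intro γ hγ
    have hpar := (mem_parabolicHoms_iff (R := ℂ)).mp
      (Fermat.Agent.S21.H381.periodMap_mem_parabolicHoms g) γ hγ
    have hP0 : P (Additive.ofMul γ) = 0 := Subtype.ext (by rw [hPcoe, hpar]; rfl)
    rw [AddMonoidHom.comp_apply, hP0, map_zero]
  · intro ℓ hℓ hℓN a ha γ
    have haL : a ∈ stabAlg L := by
      intro x hx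
      rw [ha]
      exact qCoeff_mul_mem_perLattice hg hℓ.out hℓN hx
    -- the transfer of `P` is `a • P`
    have hTP : heckeTransfer hℓN P γ = (⟨a, haL⟩ : stabAlg L) • P γ := by
      apply Subtype.ext
      rw [coe_stab_smul, hPcoe]
      have h1 := periodMap_heckeTLin hℓ.out hℓN g
      rw [heckeTLin_eq_smul hg hℓ.out hℓN, Fermat.Agent.S21.H381.periodMap_smul] at h1
      have h2 := congrArg (fun φ : Additive (Gamma0 N) →+ ℂ => φ γ) h1
      simp only [AddMonoidHom.smul_apply, smul_eq_mul] at h2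
      show ((heckeTransfer hℓN P γ : L) : ℂ) = (a : ℂ) * periodMap N g γ
      rw [ha, h2]
      have h3 : (periodMap N g) = (L.subtype).comp P := rfl
      rw [h3, heckeTransfer_comp]
      rfl
    rw [heckeTransfer_comp, AddMonoidHom.comp_apply, hTP, hπ, AddMonoidHom.comp_apply]
    rfl

end Lattice

end Fermat.Agent.S29.H642
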