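import Fermat.Agent.S29.H201.Transfer

/-!
# S29 layer M, piece E2, sub-piece (A) (helper642): `heckeHom` preserves "pe"

For helper201's Hecke operator `H201.heckeHom ℓ hℓN A` on `Hom(Γ₀(N), A)` (transfer formula over the
Prelude representatives `heckeRep ℓ x`, `x : OnePoint (ZMod ℓ)`): if `χ` vanishes on the parabolic
elements (`tr² = 4`) and on the elements of finite order, so does `heckeHom ℓ hℓN A χ`.

Cycle argument: over a cycle `x, πx, …, π^{m-1}x` of the permutation `π = permOf γ`, the sum of the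
`χ (trf γ (π^t x))` is `χ (trf (γ^m) x)`, and `trf (γ^m) x = α_x γ^m α_x⁻¹` is parabolic / of finite
order when `γ` is.

Self-contained (imports only `H201/Transfer.lean`).

The statement is given with the predicate unfolded (`heckeHom_isPe`), so that it is definitionally
the `IsPe`-statement of `H201/PeSkeleton.lean`.
-/

set_option autoImplicit false

open CongruenceSubgroup Matrix.SpecialLinearGroup
open scoped MatrixGroups

namespace Fermat.Agent.S29.H642

open Fermat.Agent.S29.H201

variable {N : ℕ} {p : ℕ} [Fact p.Prime]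

/-! ### Generic lemmas (orbit sums, traces of powers); same proofs as in the `HCoh` piece -/

theorem Pe_isPeriodicPt {ι : Type*} [Fintype ι] (π : Equiv.Perm ι) (i : ι) :
    i ∈ Function.periodicPts π := by
  classical
  refine Function.mk_mem_periodicPts (orderOf_pos π) ?_
  show π^[orderOf π] i = i
  rw [Equiv.Perm.iterate_eq_pow, pow_orderOf_eq_one]
  rfl

/-- If the sum of `f` over every cycle of `π` vanishes, then the total sum vanishes. -/
theorem Pe_sum_eq_zero_of_cycles {ι : Type*} [Fintype ι] [DecidableEq ι] {A : Type*}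
    [AddCommMonoid A] (π : Equiv.Perm ι) (f : ι → A)
    (h : ∀ i, ∑ t ∈ Finset.range (Function.minimalPeriod π i), f (π^[t] i) = 0) :
    ∑ i, f i = 0 := by
  suffices H : ∀ S : Finset ι, (∀ i ∈ S, π i ∈ S) → ∑ i ∈ S, f i = 0 from
    H Finset.univ (fun i _ => Finset.mem_univ _)
  intro S
  induction S using Finset.strongInduction with
  | H S ih =>
    intro hS
    rcases S.eq_empty_or_nonempty with rfl | ⟨i, hi⟩
    · simp
    · have hm : 0 < Function.minimalPeriod π i :=
        Function.minimalPeriod_pos_of_mem_periodicPts (Pe_isPeriodicPt π i)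
      have hiter : ∀ t : ℕ, π^[t] i ∈ S := by
        intro t
        induction t with
        | zero => exact hi
        | succ t iht =>
          rw [Function.iterate_succ_apply']
          exact hS _ iht
      have hCS : (Finset.range (Function.minimalPeriod π i)).image (fun t => π^[t] i) ⊆ S := by
        intro j hj
        obtain ⟨t, -, rfl⟩ := Finset.mem_image.1 hj
        exact hiter t
      have hiC : i ∈ (Finset.range (Function.minimalPeriod π i)).image (fun t => π^[t] i) :=
        Finset.mem_image.2 ⟨0, Finset.mem_range.2 hm, rfl⟩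
      have hback : ∀ j, π j ∈ (Finset.range (Function.minimalPeriod π i)).image
          (fun t => π^[t] i) → j ∈ (Finset.range (Function.minimalPeriod π i)).image
          (fun t => π^[t] i) := by
        intro j hj
        obtain ⟨t, ht, hjt⟩ := Finset.mem_image.1 hj
        rw [Finset.mem_range] at ht
        rcases Nat.eq_zero_or_pos t with rfl | htpos
        · refine Finset.mem_image.2 ⟨Function.minimalPeriod π i - 1,
            Finset.mem_range.2 (by omega), ?_⟩
          apply π.injective
          show π (π^[Function.minimalPeriod π i - 1] i) = π j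
          rw [← Function.iterate_succ_apply' (⇑π), ← hjt]
          have : (Function.minimalPeriod π i - 1).succ = Function.minimalPeriod π i := by omega
          rw [this, Function.iterate_minimalPeriod]
          rfl
        · refine Finset.mem_image.2 ⟨t - 1, Finset.mem_range.2 (by omega), ?_⟩
          apply π.injective
          show π (π^[t - 1] i) = π j
          rw [← Function.iterate_succ_apply' (⇑π), ← hjt]
          have : (t - 1).succ = t := by omega
          rw [this]
      have hsumC : ∑ j ∈ (Finset.range (Function.minimalPeriod π i)).image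
          (fun t => π^[t] i), f j = 0 := by
        rw [Finset.sum_image]
        · exact h i
        · intro s hs t ht hst
          exact Function.iterate_injOn_Iio_minimalPeriod
            (by simpa using hs) (by simpa using ht) hst
      have hS' : ∀ j ∈ S \ (Finset.range (Function.minimalPeriod π i)).image
          (fun t => π^[t] i), π j ∈ S \ (Finset.range (Function.minimalPeriod π i)).image
          (fun t => π^[t] i) := by
        intro j hj
        rw [Finset.mem_sdiff] at hj ⊢
        exact ⟨hS j hj.1, fun h' => hj.2 (hback j h')⟩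
      have hlt : S \ (Finset.range (Function.minimalPeriod π i)).image
          (fun t => π^[t] i) ⊂ S := Finset.sdiff_ssubset hCS ⟨i, hiC⟩
      rw [← Finset.sum_sdiff hCS, ih _ hlt hS', hsumC, add_zero]



theorem Pe_cayley (M : Matrix (Fin 2) (Fin 2) ℤ) (hdet : M.det = 1) :
    M * M = M.trace • M - 1 := by
  rw [Matrix.det_fin_two] at hdet
  ext a b
  fin_cases a <;> fin_cases b <;>
    simp [Matrix.mul_apply, Fin.sum_univ_two, Matrix.trace_fin_two, Matrix.sub_apply,
      Matrix.smul_apply, -zsmul_eq_mul] <;> linarith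

theorem Pe_trace_pow_aux {M : Matrix (Fin 2) (Fin 2) ℤ} (hdet : M.det = 1) {ε : ℤ}
    (hε : ε * ε = 1) (htr : M.trace = 2 * ε) (m : ℕ) :
    (M ^ m).trace = 2 * ε ^ m ∧ (M ^ (m + 1)).trace = 2 * ε ^ (m + 1) := by
  induction m with
  | zero =>
    refine ⟨?_, ?_⟩
    · simp [Matrix.trace_one]
    · simp [htr]
  | succ m ih =>
    refine ⟨ih.2, ?_⟩
    have hrec : M ^ (m + 1 + 1) = M.trace • M ^ (m + 1) - M ^ m := by
      rw [pow_succ (M) (m + 1), pow_succ M m, Matrix.mul_assoc, Pe_cayley M hdet,
        Matrix.mul_sub, Matrix.mul_smul, Matrix.mul_one]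
    rw [hrec, Matrix.trace_sub, Matrix.trace_smul, smul_eq_mul, ih.1, ih.2, htr]
    have e2 : ε ^ (m + 1 + 1) = ε ^ m := by
      rw [pow_succ, pow_succ, mul_assoc, hε, mul_one]
    rw [e2]
    have e1 : ε * ε ^ (m + 1) = ε ^ m := by
      rw [pow_succ, ← mul_assoc, mul_comm ε, mul_assoc, hε, mul_one]
    linear_combination 4 * e1

theorem Pe_trace_pow {M : Matrix (Fin 2) (Fin 2) ℤ} (hdet : M.det = 1)
    (htr : M.trace = 2 ∨ M.trace = -2) (m : ℕ) :
    (M ^ m).trace = 2 ∨ (M ^ m).trace = -2 := by
  rcases htr with h | h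
  · left
    have := (Pe_trace_pow_aux hdet (ε := 1) (by norm_num) (by rw [h]; norm_num) m).1
    simpa using this
  · have := (Pe_trace_pow_aux hdet (ε := -1) (by norm_num) (by rw [h]; norm_num) m).1
    rcases neg_one_pow_eq_or ℤ m with h1 | h1
    · left
      rw [this, h1]
      norm_num
    · right
      rw [this, h1]
      norm_num

/-- Iterating the cocycle rule `trf_mul`. -/
theorem Pe_trf_pow (hpN : ¬ p ∣ N) {A : Type*} [AddCommGroup A] (χ : Additive (Gamma0 N) →+ A)
    (γ : Gamma0 N) (x : OnePoint (ZMod p)) (m : ℕ) :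
    (P2MW.S_ModularForm_heckeT_slash_eq_self_of_mem_Gamma0.ModularForm.HeckeSlashInvariance.redMatrix
        p (((γ ^ m : Gamma0 N)) : SL(2, ℤ)) • x = (permOf (p := p) γ)^[m] x) ∧
      χ (Additive.ofMul (trf hpN (γ ^ m) x))
        = ∑ t ∈ Finset.range m, χ (Additive.ofMul (trf hpN γ ((permOf (p := p) γ)^[t] x))) := by
  induction m with
  | zero =>
    refine ⟨?_, ?_⟩
    · simp [H201.redMatrix_one]
    · simp [trf_one]
  | succ m ih =>
    obtain ⟨ih1, ih2⟩ := ih
    refine ⟨?_, ?_⟩
    · rw [pow_succ, Subgroup.coe_mul, H201.redMatrix_mul, mul_smul, ih1,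
        Function.iterate_succ_apply']
      rfl
    · rw [pow_succ, trf_mul, ofMul_mul, map_add, ih2, ih1, Finset.sum_range_succ]

/-- Conjugation relation in `GL₂(ℝ)` propagates to powers. -/
theorem Pe_conj_pow {G : Type*} [Monoid G] {a g d : G} (h : a * g = d * a) (n : ℕ) :
    a * g ^ n = d ^ n * a := by
  induction n with
  | zero => simp
  | succ n ih => rw [pow_succ, ← mul_assoc, ih, mul_assoc, h, ← mul_assoc, ← pow_succ]

/-- The integer trace is read off the real matrix. -/
theorem Pe_trace_mapGL (g : SL(2, ℤ)) :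
    ((mapGL ℝ g : GL (Fin 2) ℝ) : Matrix (Fin 2) (Fin 2) ℝ).trace
      = (((g : Matrix (Fin 2) (Fin 2) ℤ).trace : ℤ) : ℝ) := by
  simp [Matrix.trace_fin_two, mapGL_coe_matrix]

/-- Conjugate elements of `GL₂(ℝ)` coming from `SL₂(ℤ)` have the same integer trace. -/
theorem Pe_trace_eq_of_conj {a : GL (Fin 2) ℝ} {g d : SL(2, ℤ)}
    (h : a * mapGL ℝ g = mapGL ℝ d * a) :
    (d : Matrix (Fin 2) (Fin 2) ℤ).trace = (g : Matrix (Fin 2) (Fin 2) ℤ).trace := by
  have h1 : mapGL ℝ d = a * mapGL ℝ g * a⁻¹ := by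
    rw [h, mul_assoc, mul_inv_cancel, mul_one]
  have h2 : ((mapGL ℝ d : GL (Fin 2) ℝ) : Matrix (Fin 2) (Fin 2) ℝ).trace
      = ((mapGL ℝ g : GL (Fin 2) ℝ) : Matrix (Fin 2) (Fin 2) ℝ).trace := by
    rw [h1, Units.val_mul, Units.val_mul, Matrix.trace_mul_comm, ← Matrix.mul_assoc,
      ← Units.val_mul, inv_mul_cancel, Units.val_one, Matrix.one_mul]
  rw [Pe_trace_mapGL, Pe_trace_mapGL] at h2
  exact_mod_cast h2

/-- The element attached to a cycle: it is conjugate to `γ ^ m`. -/
theorem Pe_cycle_spec (hpN : ¬ p ∣ N) (γ : Gamma0 N) (x : OnePoint (ZMod p)) :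
    P2MW.S_ModularForm_heckeT_slash_eq_self_of_mem_Gamma0.ModularForm.HeckeSlashInvariance.heckeRep
        p x * mapGL ℝ (((γ ^ Function.minimalPeriod (permOf (p := p) γ) x : Gamma0 N)) : SL(2, ℤ))
      = mapGL ℝ ((trf hpN (γ ^ Function.minimalPeriod (permOf (p := p) γ) x) x : Gamma0 N) : SL(2, ℤ))
        * P2MW.S_ModularForm_heckeT_slash_eq_self_of_mem_Gamma0.ModularForm.HeckeSlashInvariance.heckeRep
            p x := by
  have h := trf_spec hpN (γ ^ Function.minimalPeriod (permOf (p := p) γ) x) x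
  have h1 := (Pe_trf_pow hpN (0 : Additive (Gamma0 N) →+ ℤ) γ x
    (Function.minimalPeriod (permOf (p := p) γ) x)).1
  rw [h1, Function.iterate_minimalPeriod] at h
  exact h

theorem Pe_sq_eq_four {t : ℤ} (h : t ^ 2 = 4) : t = 2 ∨ t = -2 := by
  have h2 : (t - 2) * (t + 2) = 0 := by linear_combination h
  rcases mul_eq_zero.1 h2 with h3 | h3
  · left; linarith
  · right; linarith

/-- Sub-piece (A): `heckeHom` preserves the property "vanishes on parabolic elements and on elements
of finite order" (statement with `IsPe` unfolded). -/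
theorem heckeHom_isPe (hpN : ¬ p ∣ N) {A : Type*} [AddCommGroup A]
    {χ : Additive (Gamma0 N) →+ A}
    (hχ : (∀ γ : Gamma0 N,
        ((γ : SL(2, ℤ)) : Matrix (Fin 2) (Fin 2) ℤ).trace ^ 2 = 4 → χ (Additive.ofMul γ) = 0) ∧
      (∀ γ : Gamma0 N, IsOfFinOrder γ → χ (Additive.ofMul γ) = 0)) :
    (∀ γ : Gamma0 N,
        ((γ : SL(2, ℤ)) : Matrix (Fin 2) (Fin 2) ℤ).trace ^ 2 = 4 →
          heckeHom p hpN A χ (Additive.ofMul γ) = 0) ∧
      (∀ γ : Gamma0 N, IsOfFinOrder γ → heckeHom p hpN A χ (Additive.ofMul γ) = 0) := by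
  classical
  obtain ⟨hpar, hfin⟩ := hχ
  refine ⟨?_, ?_⟩
  · intro γ hγ
    rw [heckeHom_apply]
    refine Pe_sum_eq_zero_of_cycles (permOf (p := p) γ)
      (fun x => χ (Additive.ofMul (trf hpN γ x))) ?_
    intro x
    rw [← (Pe_trf_pow hpN χ γ x _).2]
    apply hpar
    have hc := Pe_cycle_spec hpN γ x
    rw [Pe_trace_eq_of_conj hc, Subgroup.coe_pow, Matrix.SpecialLinearGroup.coe_pow]
    rcases Pe_trace_pow (γ : SL(2, ℤ)).2 (Pe_sq_eq_four hγ)
      (Function.minimalPeriod (permOf (p := p) γ) x) with h | h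
    · rw [h]; norm_num
    · rw [h]; norm_num
  · intro γ hγ
    rw [heckeHom_apply]
    refine Pe_sum_eq_zero_of_cycles (permOf (p := p) γ)
      (fun x => χ (Additive.ofMul (trf hpN γ x))) ?_
    intro x
    rw [← (Pe_trf_pow hpN χ γ x _).2]
    apply hfin
    obtain ⟨n, hn, hγn⟩ := isOfFinOrder_iff_pow_eq_one.1 hγ
    refine isOfFinOrder_iff_pow_eq_one.2 ⟨n, hn, ?_⟩
    have hc := Pe_conj_pow (Pe_cycle_spec hpN γ x) n
    rw [← map_pow, ← map_pow, ← Subgroup.coe_pow, ← Subgroup.coe_pow, ← pow_mul, mul_comm,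
      pow_mul, hγn, one_pow, Subgroup.coe_one, map_one, mul_one] at hc
    have h1 : mapGL ℝ (((trf hpN (γ ^ Function.minimalPeriod (permOf (p := p) γ) x) x ^ n :
        Gamma0 N)) : SL(2, ℤ)) = mapGL ℝ (1 : SL(2, ℤ)) := by
      rw [map_one]
      exact mul_right_cancel (hc.symm.trans (one_mul _).symm)
    exact Subtype.ext (mapGL_injective h1)

end Fermat.Agent.S29.H642
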