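import Fermat.Agent.S29.M4b.Defs
import Fermat.Agent.S29.H389.DictKummer
import Fermat.Agent.S29.H332.K1
import Fermat.Agent.S29.H882.GoodQ
import Fermat.Agent.S24.Mod.H708QSubst

/-!
# S29 / layer M / M4b — PIECE `K2` (DICT), exact skeleton type (helper642)

`exists_isKummerClass_of_realised` : if `u ∈ FF N` is realised by `U ^ p`, `U` a twisted function
of a character `c : Γ₀(N) → ℤ/p` killing parabolic and finite-order elements, then `u` has a
`p`-Kummer class in `J₀(N)(ℚ̄)`.

Route (direct, over `ℚ̄`): adapter to helper389's landed `H389.exists_isKummerClass_of_analytic_pow`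
for the concrete analytic core `S24.H997.analyticCore N`:

* `K2_mem_holN` : `U ∈ holN N` (all `SL₂(ℤ)`-translates of `U` are `N`-periodic because `c` kills
  the parabolic elements, and of exponential growth because `U ^ p` is good);
* `K2_qexp_pow` : the expansion at `i∞` (in `q^{1/N}`) of `U ^ p` is `Φ N u`;
* the relation `e(r) = U ^ p · e(s)` in `Hol` for `u = r / s`, and invariance of `U` under the
  elements of `Γ₀(N)` of finite order or trace `2`.
-/

set_option autoImplicit false
set_option linter.unusedSectionVars false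
set_option linter.style.haveILetI false

noncomputable section

open ModularCurve AlgebraicCurve CongruenceSubgroup UpperHalfPlane HahnSeries
open scoped MatrixGroups Manifold Real

namespace Fermat.Agent.S29.H642

open Fermat.Agent.S24 Fermat.Agent.S24.H997 Fermat.Agent.S24.H648 Fermat.Agent.S24.H708
  Fermat.Agent.S29 Fermat.Agent.S29.M4b Fermat.Agent.S29.H332

variable {N : ℕ} [NeZero N] {p : ℕ} [NeZero p]

/-! ### Growth -/

theorem K2_le_one_add_pow {x : ℝ} (hx : 0 ≤ x) {n : ℕ} (hn : n ≠ 0) : x ≤ 1 + x ^ n := by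
  rcases le_or_gt x 1 with h | h
  · have : 0 ≤ x ^ n := pow_nonneg hx n
    linarith
  · have h1 : x ^ 1 ≤ x ^ n := pow_le_pow_right₀ h.le (Nat.one_le_iff_ne_zero.mpr hn)
    rw [pow_one] at h1
    linarith

/-- Exponential growth of a power gives exponential growth of the function. -/
theorem K2_expGrowth_of_pow {f : ℍ → ℂ} {n : ℕ} (hn : n ≠ 0)
    (h : ExpGrowth (fun τ => f τ ^ n)) : ExpGrowth f := by
  obtain ⟨C, m, hC⟩ := h
  refine ⟨1 + |C|, m, fun τ hτ => ?_⟩
  have h1 := hC τ hτ
  rw [norm_pow] at h1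
  have h2 := K2_le_one_add_pow (norm_nonneg (f τ)) hn
  have h3 : (1 : ℝ) ≤ Real.exp (2 * π * m * τ.im) := by
    apply Real.one_le_exp
    have := τ.im_pos
    positivity
  have h4 : C * Real.exp (2 * π * m * τ.im) ≤ |C| * Real.exp (2 * π * m * τ.im) :=
    mul_le_mul_of_nonneg_right (le_abs_self C) (Real.exp_pos _).le
  calc ‖f τ‖ ≤ 1 + ‖f τ‖ ^ n := h2
    _ ≤ 1 + C * Real.exp (2 * π * m * τ.im) := by linarith
    _ ≤ Real.exp (2 * π * m * τ.im) + |C| * Real.exp (2 * π * m * τ.im) := by linarith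
    _ = (1 + |C|) * Real.exp (2 * π * m * τ.im) := by ring

/-- Exponential growth gives a pole of finite order at `i∞` in the parameter `exp(2πiτ/N)`. -/
theorem K2_isBounded_mul_qh_pow {f : ℍ → ℂ} (hf : ExpGrowth f) :
    ∃ M : ℕ, IsBoundedAtImInfty (f * qh N ^ M) := by
  obtain ⟨C, m, h⟩ := hf
  refine ⟨N * m, ?_⟩
  rw [UpperHalfPlane.isBoundedAtImInfty_iff]
  refine ⟨C, 1, fun τ hτ => ?_⟩
  have h1 := h τ hτ
  have hN : (N : ℝ) ≠ 0 := by exact_mod_cast NeZero.ne N
  have hq : ‖qh N τ‖ = Real.exp (-2 * π * τ.im / N) := norm_infZ_eq τ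
  rw [Pi.mul_apply, Pi.pow_apply, norm_mul, norm_pow, hq, ← Real.exp_nat_mul]
  calc ‖f τ‖ * Real.exp (((N * m : ℕ) : ℝ) * (-2 * π * τ.im / N))
      ≤ C * Real.exp (2 * π * m * τ.im) * Real.exp (((N * m : ℕ) : ℝ) * (-2 * π * τ.im / N)) :=
        mul_le_mul_of_nonneg_right h1 (Real.exp_pos _).le
    _ = C := by
        rw [mul_assoc, ← Real.exp_add]
        have : 2 * π * m * τ.im + ((N * m : ℕ) : ℝ) * (-2 * π * τ.im / N) = 0 := by
          push_cast
          field_simp
          ring
        rw [this, Real.exp_zero, mul_one]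

/-! ### `U ∈ holN N` -/

theorem K2_hasCharacter {c : G0 N → ZMod p} (hc : IsParHom c) {U : ℍ → ℂ}
    (hU : IsTwisted N p c U) : HasCharacter (isParAdd_of_isParHom hc).char U := by
  intro γ τ
  rw [IsParAdd.char_apply, ← zetaP_pow_val]
  exact hU.hasChar γ τ

theorem K2_mem_holN {c : G0 N → ZMod p} (hc : IsParHom c) {U : ℍ → ℂ}
    (hU : IsTwisted N p c U) : U ∈ holN N := by
  have hpa : IsParAdd c := isParAdd_of_isParHom hc
  have hchar := K2_hasCharacter hc hU
  refine ⟨hU.mdiff, fun g => ?_⟩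
  have hol : MDiff (compSL g U) := mdifferentiable_comp_smul hU.mdiff g
  have hper : Function.Periodic (compSL g U ∘ ofComplex) (N : ℝ) :=
    hchar.periodic hpa.parTrivial g N (by simpa using conj_T_zpow_mem_Gamma0 N g 1)
  have hgr : ExpGrowth (compSL g U) :=
    K2_expGrowth_of_pow (NeZero.ne p) (hU.pow_mem.2.2 g)
  have hmer : IsMerInf N (compSL g U) := ⟨hol, hper, K2_isBounded_mul_qh_pow hgr⟩
  exact ⟨qexpFun N (compSL g U), fun τ => (HasQExp.of_isMerInf hmer).hasSum τ⟩

/-! ### The expansion of `U ^ p` -/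

theorem K2_iotaC_eq : Deg457.iotaC = ιK := rfl

/-- The expansion at `i∞` in `exp(2πiτ/N)` of a good function realising `u` is `Φ N u`. -/
theorem K2_infExp_of_realises {u : FF N} {G : ℍ → ℂ} (hu : Realises N u G) :
    InfExp N G (HolBase.Φ N ((u : FF N) : LaurentSeries Kbar)) := by
  have h1 : HasQExp 1 G (coeffMap Deg457.iotaC ((u : FF N) : LaurentSeries Kbar)) := by
    have := H882.hasQExp_of_mem_goodRing hu.1
    rwa [hu.2] at this
  have h2 := HasQExp.of_period_mul N h1
  intro τ
  have h3 := HasQExp.hasSum h2 τ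
  simp only [one_mul] at h3
  exact h3

/-! ### The piece -/

theorem K2_one_ne_zero : (1 : (holBase N).Hol) ≠ 0 := by
  intro h
  have := congrArg (fun f : (holBase N).Hol => (f : ℍ → ℂ) UpperHalfPlane.I) h
  simp at this

/-- **PIECE `K2`** of the M4b skeleton (exact type): DICTIONARY over `ℚ̄`, hard direction. -/
theorem exists_isKummerClass_of_realised (N : ℕ) [NeZero N] (p : ℕ) [NeZero p]
    {c : G0 N → ZMod p} (hc : IsParHom c) {U : ℍ → ℂ}
    {u : FF N} (hU : IsTwisted N p c U) (hu : Realises N u (fun τ => U τ ^ p)) :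
    ∃ x : JZero N, H455.IsKummerClass (p : ℤ) u x := by
  classical
  have hp : p ≠ 0 := NeZero.ne p
  let h₁ : (holBase N).Hol := ⟨U, K2_mem_holN hc hU⟩
  have hh₁ : h₁ ≠ 0 := by
    obtain ⟨τ, hτ⟩ := hU.ne_zero
    intro h0
    apply hτ
    exact congrArg (fun f : (holBase N).Hol => (f : ℍ → ℂ) τ) h0
  -- the expansion of `U ^ p`
  have hq : (holBase N).qexp (h₁ ^ p) = HolBase.Φ N ((u : FF N) : LaurentSeries Kbar) := by
    have h1 := K2_infExp_of_realises hu
    have h2 : InfExp N (((holToExp N (h₁ ^ p) : expRing N)) : ℍ → ℂ)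
        (expInf N (holToExp N (h₁ ^ p))) := expInf_spec _
    exact h2.unique' h1 (fun τ => rfl)
  have hqne : (holBase N).qexp (h₁ ^ p) ≠ 0 := by
    rw [map_pow]
    refine pow_ne_zero _ ?_
    intro h0
    exact hh₁ ((holBase N).qexp_injective (h0.trans (map_zero _).symm))
  have hu0 : u ≠ 0 := by
    intro h0
    apply hqne
    rw [hq, h0]
    simp
  -- `u = r / s`
  obtain ⟨r, s, hs, hrs⟩ := exists_div_inclRN N u
  have hs' : inclRN N s ≠ 0 := fun h => hs (inclRN_injective N (by rw [h, map_zero]))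
  have hr : r ≠ 0 := by
    intro h0
    apply hu0
    rw [hrs, h0, map_zero, zero_div]
  have hmul : ((r : RN N) : LaurentSeries Kbar)
      = ((u : FF N) : LaurentSeries Kbar) * ((s : RN N) : LaurentSeries Kbar) := by
    have h1 : (inclRN N r : FF N) = u * inclRN N s := by
      rw [hrs, div_mul_cancel₀ _ hs']
    exact congrArg (fun f : FF N => (f : LaurentSeries Kbar)) h1
  have hrel : (holBase N).bridge r * (1 : (holBase N).Hol) ^ p
      = (holBase N).constH 1 * h₁ ^ p * (holBase N).bridge s := by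
    apply (holBase N).qexp_injective
    have hc1 : (holBase N).qexp ((holBase N).constH 1) = 1 := by
      have := (holBase N).qexp_const 1
      rw [map_one] at this
      exact this
    rw [one_pow, mul_one, map_mul, map_mul, hq, hc1, one_mul, HolBase.qexp_bridge,
      HolBase.qexp_bridge, ← map_mul, hmul]
  have hinv : ∀ δ : SL(2, ℤ), δ ∈ Gamma0 N → H389.Nice δ →
      (holBase N).compH δ h₁ * 1 = h₁ * (holBase N).compH δ 1 := by
    intro δ hδ hnice
    have hcδ : c ⟨δ, hδ⟩ = 0 := by
      rcases hnice with hfin | htr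
      · obtain ⟨n, hn, hδn⟩ := isOfFinOrder_iff_pow_eq_one.1 hfin
        exact hc.elliptic ⟨δ, hδ⟩ n hn (Subtype.ext hδn)
      · exact hc.parabolic ⟨δ, hδ⟩ (Or.inl htr)
    have h1 : (holBase N).compH δ h₁ = h₁ := by
      apply Subtype.ext
      funext τ
      show U (δ • τ) = U τ
      have := hU.hasChar ⟨δ, hδ⟩ τ
      rw [hcδ] at this
      simpa using this
    rw [h1, map_one]
  obtain ⟨x, hx⟩ := H389.exists_isKummerClass_of_analytic_pow (analyticCore N) p hp r s hr hs
    h₁ 1 hh₁ K2_one_ne_zero 1 one_ne_zero hrel hinv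
  exact ⟨x, by rw [hrs]; exact hx⟩

end Fermat.Agent.S29.H642
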